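import Mathlib
import Fermat.Prelude.Def_ModularForm_HeckeOperatorForms
import Fermat.Prelude.Def_FLTPrelim_Modularity
import Fermat.Agent.S49.Glue

/-!
# S29 / P5-E2b (helper200, for helper201's skeleton `S29/H201/Eigen.lean`)

A normalized eigenform (Prelude sense: multiplicative `q`-coefficients) is an eigenvector of
`T_p`, `p ∤ N`, with eigenvalue `a_p`.  Exact statement of the skeleton.
-/

set_option autoImplicit false

open CongruenceSubgroup UpperHalfPlane
open scoped MatrixGroups

namespace Fermat.Agent.S29.H200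

variable {N : ℕ} {p : ℕ}

/-- The Hecke recursion for the coefficients of a normalized eigenform. -/
theorem qCoeff_hecke_relation {g : CuspForm (Gamma0 N) 2}
    (hg : g.IsNormalizedEigenform) (hp : p.Prime) (hpN : ¬ p ∣ N) (n : ℕ) :
    ModularFormClass.qCoeff g (n * p) +
        (if p ∣ n then (p : ℂ) * ModularFormClass.qCoeff g (n / p) else 0) =
      ModularFormClass.qCoeff g p * ModularFormClass.qCoeff g n := by
  rcases Nat.eq_zero_or_pos n with rfl | hn
  · have h0 : ModularFormClass.qCoeff (⇑g) 0 = 0 := Fermat.Agent.S49.glue_qCoeff_zero_idx g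
    simp [h0]
  · obtain ⟨r, m, hm, rfl⟩ := Nat.exists_eq_pow_mul_and_not_dvd hn.ne' p hp.ne_one
    have hcop : ∀ s : ℕ, (p ^ s).Coprime m := fun s =>
      Nat.Coprime.pow_left s ((Nat.Prime.coprime_iff_not_dvd hp).mpr hm)
    rcases r with _ | r
    · -- `p ∤ n`
      simp only [pow_zero, one_mul]
      rw [if_neg hm, add_zero, mul_comm m p]
      have := hg.qCoeff_mul_of_coprime p m (by simpa using hcop 1)
      exact this
    · have hdvd : p ∣ p ^ (r + 1) * m := Dvd.dvd.mul_right (dvd_pow_self p (Nat.succ_ne_zero r)) m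
      rw [if_pos hdvd]
      have e1 : p ^ (r + 1) * m * p = p ^ (r + 2) * m := by ring
      have e2 : p ^ (r + 1) * m / p = p ^ r * m := by
        rw [pow_succ, mul_assoc, mul_comm p m, ← mul_assoc]
        exact Nat.mul_div_cancel _ hp.pos
      rw [e1, e2, hg.qCoeff_mul_of_coprime _ _ (hcop (r + 2)),
        hg.qCoeff_mul_of_coprime _ _ (hcop r), hg.qCoeff_mul_of_coprime _ _ (hcop (r + 1)),
        hg.qCoeff_prime_pow_of_not_dvd p r hp hpN]
      ring

/-- **E2b** (exact statement of `Fermat/Agent/S29/H201/Eigen.lean`). -/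
theorem heckeTLin_eq_smul_of_isNormalizedEigenform {g : CuspForm (Gamma0 N) 2}
    (hg : g.IsNormalizedEigenform) (hp : p.Prime) (hpN : ¬ p ∣ N) :
    CuspForm.heckeTLin 2 hp hpN g = ModularFormClass.qCoeff g p • g := by
  rw [← sub_eq_zero]
  apply Fermat.Agent.S49.glue_eq_zero_of_qCoeff
  intro n
  rw [Fermat.Agent.S49.glue_qCoeff_sub, Fermat.Agent.S49.glue_qCoeff_smul,
    Fermat.Agent.S49.glue_qCoeff_heckeTLin, qCoeff_hecke_relation hg hp hpN n, sub_self]

end Fermat.Agent.S29.H200
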